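/-
Programme DS (S48), brick H2 (helper92): reductions of algebraic integers and the pigeonhole
argument over infinitely many residue characteristics.

* `exists_mul_eq_intCast`: a nonzero algebraic integer divides a nonzero rational integer;
* `exists_finset_of_ne_zero`: a nonzero algebraic integer is killed by reductions
  `ℤbar →+* k` in only finitely many characteristics;
* `exists_finset_injOn`: a finite set of algebraic integers is mapped injectively by every
  reduction outside finitely many characteristics;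
* `exists_eq_of_infinite`: pigeonhole;
* `exists_roots_of_unity_of_infinite`: if for infinitely many `ℓ` the pair `(t, e)` is congruent
  to `(a + b, a b)` with `a, b` roots of unity of order dividing `D` (depending on `ℓ`), then
  `(t, e) = (a + b, a b)` for some such `a, b`;
* `exists_finset_injOn_rootsOfUnity`: one `ℓ` separates all the `a + b` and all the `a b`.
-/
import Mathlib

set_option autoImplicit false

open Polynomial

namespace Fermat.Agent.DS.End.Pigeonhole

local notation "ℤbar" => integralClosure ℤ ℂ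

universe u

/-- A nonzero algebraic integer divides a nonzero rational integer. -/
theorem exists_mul_eq_intCast (x : ℤbar) (hx : x ≠ 0) :
    ∃ (n : ℤ) (y : ℤbar), n ≠ 0 ∧ x * y = (n : ℤbar) := by
  have hxC : (x : ℂ) ≠ 0 := fun h => hx (Subtype.ext h)
  have hint : IsIntegral ℤ (x : ℂ) := x.2
  set P : ℤ[X] := minpoly ℤ (x : ℂ) with hP
  have hcoeff : P.coeff 0 ≠ 0 := by
    have h1 : minpoly ℚ (x : ℂ) = P.map (algebraMap ℤ ℚ) :=
      minpoly.isIntegrallyClosed_eq_field_fractions' ℚ hint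
    have h2 : (minpoly ℚ (x : ℂ)).coeff 0 ≠ 0 :=
      minpoly.coeff_zero_ne_zero hint.tower_top hxC
    rw [h1, Polynomial.coeff_map] at h2
    intro h0
    rw [h0, map_zero] at h2
    exact h2 rfl
  have haeval : Polynomial.aeval x P = 0 := by
    apply Subtype.ext
    have h1 : ((Polynomial.aeval x P : ℤbar) : ℂ) = Polynomial.aeval (x : ℂ) P :=
      (Polynomial.aeval_algHom_apply (integralClosure ℤ ℂ).val x P).symm
    rw [h1, hP, minpoly.aeval]
    rfl
  refine ⟨P.coeff 0, -(Polynomial.aeval x (divX P)), hcoeff, ?_⟩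
  have h1 : Polynomial.aeval x (X * divX P + C (P.coeff 0)) = 0 := by
    rw [X_mul_divX_add]
    exact haeval
  rw [map_add, map_mul, aeval_X, aeval_C] at h1
  have h2 : algebraMap ℤ ℤbar (P.coeff 0) = ((P.coeff 0 : ℤ) : ℤbar) := by
    rw [eq_intCast]
  rw [h2] at h1
  linear_combination -h1

/-- A nonzero algebraic integer vanishes under reductions in only finitely many
characteristics. -/
theorem exists_finset_of_ne_zero (x : ℤbar) (hx : x ≠ 0) :
    ∃ S : Finset ℕ, ∀ (ℓ : ℕ) (k : Type u) [CommRing k] [CharP k ℓ] (φ : ℤbar →+* k),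
      φ x = 0 → ℓ ∈ S := by
  obtain ⟨n, y, hn, hxy⟩ := exists_mul_eq_intCast x hx
  refine ⟨n.natAbs.divisors, fun ℓ k _ _ φ hφ => ?_⟩
  have h1 : ((n : ℤ) : k) = 0 := by
    have := congrArg φ hxy
    rw [map_mul, hφ, zero_mul, map_intCast] at this
    exact this.symm
  have h2 : (ℓ : ℤ) ∣ n := (CharP.intCast_eq_zero_iff k ℓ n).mp h1
  rw [Nat.mem_divisors]
  exact ⟨Int.natCast_dvd.mp h2, Int.natAbs_ne_zero.mpr hn⟩

/-- Outside finitely many characteristics every reduction is injective on a given finite set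
of algebraic integers. -/
theorem exists_finset_injOn (Y : Finset ℤbar) :
    ∃ S : Finset ℕ, ∀ (ℓ : ℕ) (k : Type u) [CommRing k] [CharP k ℓ] (φ : ℤbar →+* k),
      ℓ ∉ S → Set.InjOn φ (Y : Set ℤbar) := by
  classical
  have hex : ∀ p : ℤbar × ℤbar, ∃ S : Finset ℕ, p.1 ≠ p.2 →
      ∀ (ℓ : ℕ) (k : Type u) [CommRing k] [CharP k ℓ] (φ : ℤbar →+* k),
        φ (p.1 - p.2) = 0 → ℓ ∈ S := by
    intro p
    by_cases hp : p.1 = p.2
    · exact ⟨∅, fun h => absurd hp h⟩
    · obtain ⟨S, hS⟩ := exists_finset_of_ne_zero.{u} (p.1 - p.2) (sub_ne_zero.mpr hp)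
      exact ⟨S, fun _ => hS⟩
  choose S hS using hex
  refine ⟨(Y ×ˢ Y).biUnion S, fun ℓ k _ _ φ hℓ a ha b hb hab => ?_⟩
  by_contra hne
  apply hℓ
  rw [Finset.mem_biUnion]
  refine ⟨(a, b), Finset.mem_product.mpr ⟨ha, hb⟩, hS (a, b) hne ℓ k φ ?_⟩
  rw [map_sub, hab, sub_self]

/-- **Pigeonhole over infinitely many characteristics.**  If for infinitely many `ℓ` the family
`x` is congruent, under some reduction in characteristic `ℓ`, to one of finitely many families
`y i`, then `x` is equal to one of the `y i`. -/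
theorem exists_eq_of_infinite {ι κ : Type*} [Finite ι] [Finite κ] (x : κ → ℤbar)
    (y : ι → κ → ℤbar) (L : Set ℕ) (hL : L.Infinite)
    (h : ∀ ℓ ∈ L, ∃ (k : Type u) (_ : CommRing k) (_ : CharP k ℓ) (φ : ℤbar →+* k) (i : ι),
      ∀ j, φ (x j) = φ (y i j)) :
    ∃ i, x = y i := by
  classical
  by_contra hne0
  have hne : ∀ i, x ≠ y i := fun i hi => hne0 ⟨i, hi⟩
  have hex : ∀ i : ι, ∃ S : Finset ℕ,
      ∀ (ℓ : ℕ) (k : Type u) [CommRing k] [CharP k ℓ] (φ : ℤbar →+* k),
        (∀ j, φ (x j) = φ (y i j)) → ℓ ∈ S := by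
    intro i
    have hj : ∃ j, x j ≠ y i j := by
      by_contra hall
      exact hne i (funext fun j => by_contra fun hj => hall ⟨j, hj⟩)
    obtain ⟨j, hj⟩ := hj
    obtain ⟨S, hS⟩ := exists_finset_of_ne_zero.{u} (x j - y i j) (sub_ne_zero.mpr hj)
    refine ⟨S, fun ℓ k _ _ φ hφ => hS ℓ k φ ?_⟩
    rw [map_sub, hφ j, sub_self]
  choose S hS using hex
  have := Fintype.ofFinite ι
  obtain ⟨ℓ, hℓL, hℓS⟩ := hL.exists_notMem_finset (Finset.univ.biUnion S)
  obtain ⟨k, _, _, φ, i, hi⟩ := h ℓ hℓL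
  apply hℓS
  rw [Finset.mem_biUnion]
  exact ⟨i, Finset.mem_univ i, hS i ℓ k φ hi⟩

/-- The roots of unity of order dividing `D` among the algebraic integers form a finite set. -/
theorem finite_rootsOfUnity (D : ℕ) (hD : 0 < D) : Finite {z : ℤbar // z ^ D = 1} := by
  classical
  have : {z : ℤbar | z ^ D = 1} = ((nthRootsFinset D (1 : ℤbar) : Finset ℤbar) : Set ℤbar) := by
    ext z
    show z ^ D = 1 ↔ z ∈ nthRootsFinset D (1 : ℤbar)
    exact (mem_nthRootsFinset hD 1).symm
  have hfin : {z : ℤbar | z ^ D = 1}.Finite := by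
    rw [this]
    exact Finset.finite_toSet _
  exact hfin.to_subtype

/-- **Pigeonhole for characteristic polynomials.**  If for infinitely many `ℓ` some reduction in
characteristic `ℓ` identifies `X² - t X + e` with `(X - a)(X - b)` for roots of unity `a, b` of
order dividing `D` (depending on `ℓ`), then `t = a + b` and `e = a b` for some such `a, b`. -/
theorem exists_roots_of_unity_of_infinite (D : ℕ) (hD : 0 < D) (t e : ℤbar) (L : Set ℕ)
    (hL : L.Infinite)
    (h : ∀ ℓ ∈ L, ∃ (k : Type u) (_ : CommRing k) (_ : CharP k ℓ) (φ : ℤbar →+* k) (a b : ℤbar),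
      a ^ D = 1 ∧ b ^ D = 1 ∧ φ t = φ (a + b) ∧ φ e = φ (a * b)) :
    ∃ a b : ℤbar, a ^ D = 1 ∧ b ^ D = 1 ∧ t = a + b ∧ e = a * b := by
  have := finite_rootsOfUnity D hD
  let x : Fin 2 → ℤbar := ![t, e]
  let y : {z : ℤbar // z ^ D = 1} × {z : ℤbar // z ^ D = 1} → Fin 2 → ℤbar :=
    fun p => ![(p.1 : ℤbar) + p.2, (p.1 : ℤbar) * p.2]
  obtain ⟨p, hp⟩ := exists_eq_of_infinite.{u} x y L hL (fun ℓ hℓ => by
    obtain ⟨k, i1, i2, φ, a, b, ha, hb, h1, h2⟩ := h ℓ hℓ
    refine ⟨k, i1, i2, φ, (⟨a, ha⟩, ⟨b, hb⟩), fun j => ?_⟩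
    fin_cases j
    · exact h1
    · exact h2)
  refine ⟨p.1, p.2, p.1.2, p.2.2, ?_, ?_⟩
  · exact congrFun hp 0
  · exact congrFun hp 1

/-- Outside finitely many characteristics, every reduction separates the sums and the products of
pairs of roots of unity of order dividing `D`. -/
theorem exists_finset_injOn_rootsOfUnity (D : ℕ) (hD : 0 < D) :
    ∃ S : Finset ℕ, ∀ (ℓ : ℕ) (k : Type u) [CommRing k] [CharP k ℓ] (φ : ℤbar →+* k), ℓ ∉ S →
      ∀ a b a' b' : ℤbar, a ^ D = 1 → b ^ D = 1 → a' ^ D = 1 → b' ^ D = 1 →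
        (φ (a + b) = φ (a' + b') → a + b = a' + b') ∧ (φ (a * b) = φ (a' * b') → a * b = a' * b') := by
  classical
  set μ : Finset ℤbar := nthRootsFinset D (1 : ℤbar) with hμ
  have hmem : ∀ z : ℤbar, z ∈ μ ↔ z ^ D = 1 := fun z => mem_nthRootsFinset hD 1
  obtain ⟨S, hS⟩ := exists_finset_injOn.{u}
    (((μ ×ˢ μ).image fun p => p.1 + p.2) ∪ ((μ ×ˢ μ).image fun p => p.1 * p.2))
  refine ⟨S, fun ℓ k _ _ φ hℓ a b a' b' ha hb ha' hb' => ?_⟩
  have hinj := hS ℓ k φ hℓ
  have hpair : ∀ c d : ℤbar, c ^ D = 1 → d ^ D = 1 → (c, d) ∈ μ ×ˢ μ := fun c d hc hd =>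
    Finset.mem_product.mpr ⟨(hmem c).mpr hc, (hmem d).mpr hd⟩
  constructor
  · intro h
    refine hinj ?_ ?_ h
    · rw [Finset.coe_union]
      exact Or.inl (Finset.mem_coe.mpr (Finset.mem_image.mpr ⟨(a, b), hpair a b ha hb, rfl⟩))
    · rw [Finset.coe_union]
      exact Or.inl (Finset.mem_coe.mpr (Finset.mem_image.mpr ⟨(a', b'), hpair a' b' ha' hb', rfl⟩))
  · intro h
    refine hinj ?_ ?_ h
    · rw [Finset.coe_union]
      exact Or.inr (Finset.mem_coe.mpr (Finset.mem_image.mpr ⟨(a, b), hpair a b ha hb, rfl⟩))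
    · rw [Finset.coe_union]
      exact Or.inr (Finset.mem_coe.mpr (Finset.mem_image.mpr ⟨(a', b'), hpair a' b' ha' hb', rfl⟩))

end Fermat.Agent.DS.End.Pigeonhole
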