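/-
Programme DS (S48), brick H3 / B6 (helper92): independence of the auxiliary prime.

* `charpoly_pow_eq_of_charpoly_eq`: for `2 × 2` matrices the characteristic polynomial of a power
  is determined by the characteristic polynomial;
* `charpoly_eq_of_frobenius`: two finite-level representations `G_ℚ → GL₂(ℂ)` whose Frobenius
  characteristic polynomials agree outside a finite set of primes have the same characteristic
  polynomials everywhere (generator form of Chebotarev, `ES/GAL/ChebQbar23`);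
* `ker_eq_of_frobenius`: ... and the same kernel;
* `glue_two_primes`: if `ρ₁` has the right ramification and Frobenius traces/determinants outside
  `N ℓ₁` and `ρ₂` outside `N ℓ₂` with `ℓ₁ ≠ ℓ₂`, then `ρ₁` has them outside `N`.
-/
import Mathlib
import Fermat.Prelude.Def_GaloisRep_Residual
import Fermat.Agent.ES.GAL.ChebQbar23

set_option autoImplicit false

open Polynomial Matrix

namespace Fermat.Agent.DS.End.TwoPrimes

local notation "Γℚ" => (AlgebraicClosure ℚ ≃ₐ[ℚ] AlgebraicClosure ℚ)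

/-! ### Powers of `2 × 2` matrices -/

section powers

variable {k : Type*} [CommRing k]

/-- Cayley--Hamilton for `2 × 2` matrices. -/
theorem mul_self_eq (M : Matrix (Fin 2) (Fin 2) k) :
    M * M = M.trace • M - M.det • (1 : Matrix (Fin 2) (Fin 2) k) := by
  ext i j
  fin_cases i <;> fin_cases j <;>
    simp [Matrix.mul_apply, Fin.sum_univ_two, Matrix.trace_fin_two, Matrix.det_fin_two] <;> ring

/-- The coefficients of `M ^ j = u • M + v • 1`, as functions of trace and determinant. -/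
def coeffSeq (t d : k) : ℕ → k × k
  | 0 => (0, 1)
  | j + 1 => ((coeffSeq t d j).1 * t + (coeffSeq t d j).2, -((coeffSeq t d j).1 * d))

theorem pow_eq_coeffSeq (M : Matrix (Fin 2) (Fin 2) k) (j : ℕ) :
    M ^ j = (coeffSeq M.trace M.det j).1 • M +
      (coeffSeq M.trace M.det j).2 • (1 : Matrix (Fin 2) (Fin 2) k) := by
  induction j with
  | zero => simp [coeffSeq]
  | succ j ih =>
    rw [pow_succ, ih, add_mul, Matrix.smul_mul, Matrix.smul_mul, one_mul, mul_self_eq]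
    simp only [coeffSeq]
    rw [smul_sub, smul_smul, smul_smul, add_smul, neg_smul]
    abel

theorem trace_pow_eq (M : Matrix (Fin 2) (Fin 2) k) (j : ℕ) :
    (M ^ j).trace = (coeffSeq M.trace M.det j).1 * M.trace + 2 * (coeffSeq M.trace M.det j).2 := by
  rw [pow_eq_coeffSeq M j, Matrix.trace_add, Matrix.trace_smul, Matrix.trace_smul, Matrix.trace_one,
    Fintype.card_fin]
  simp only [smul_eq_mul, Nat.cast_ofNat]
  ring

/-- trace and determinant from the characteristic polynomial -/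
theorem trace_det_eq_of_charpoly_eq {M M' : Matrix (Fin 2) (Fin 2) k}
    (h : M.charpoly = M'.charpoly) : M.trace = M'.trace ∧ M.det = M'.det := by
  rcases subsingleton_or_nontrivial k with hk | hk
  · exact ⟨Subsingleton.elim _ _, Subsingleton.elim _ _⟩
  rw [Matrix.charpoly_fin_two, Matrix.charpoly_fin_two] at h
  have h0 := congrArg (Polynomial.eval 0) h
  have h1 := congrArg (Polynomial.eval 1) h
  simp only [eval_add, eval_sub, eval_pow, eval_X, eval_mul, eval_C, one_pow, mul_one,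
    mul_zero, sub_zero] at h0 h1
  have hd : M.det = M'.det := by
    have := h0
    simpa using this
  refine ⟨?_, hd⟩
  rw [hd] at h1
  linear_combination -h1

/-- For `2 × 2` matrices the characteristic polynomial of a power is determined by the
characteristic polynomial. -/
theorem charpoly_pow_eq_of_charpoly_eq {M M' : Matrix (Fin 2) (Fin 2) k}
    (h : M.charpoly = M'.charpoly) (j : ℕ) : (M ^ j).charpoly = (M' ^ j).charpoly := by
  obtain ⟨ht, hd⟩ := trace_det_eq_of_charpoly_eq h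
  rcases subsingleton_or_nontrivial k with hk | hk
  · exact Subsingleton.elim _ _
  rw [Matrix.charpoly_fin_two, Matrix.charpoly_fin_two, trace_pow_eq, trace_pow_eq, Matrix.det_pow,
    Matrix.det_pow, ht, hd]

end powers

/-! ### Finite level -/

section level

open Fermat.Agent.Lib.FrobeniusExists

attribute [local instance] isGalois_Qbar isIntegral_Qbar

/-- A finite-level homomorphism has finite exponent. -/
theorem exists_pow_eq_one {M : Type} [Monoid M] (ρ : Γℚ →* M)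
    (hρ : GaloisFactorsThroughFiniteLevel ρ) : ∃ m : ℕ, 0 < m ∧ ∀ σ, ρ σ ^ m = 1 := by
  obtain ⟨L, hL, hker⟩ := hρ
  obtain ⟨N, hfin, hnorm, hLN⟩ : ∃ N : IntermediateField ℚ Qbar,
      FiniteDimensional ℚ N ∧ Normal ℚ N ∧ L ≤ N :=
    ⟨IntermediateField.normalClosure ℚ L Qbar, normalClosure.is_finiteDimensional ℚ L Qbar,
      normalClosure.normal ℚ L Qbar, IntermediateField.le_normalClosure L⟩
  refine ⟨Nat.card (N ≃ₐ[ℚ] N), Nat.card_pos, fun σ => ?_⟩
  rw [← map_pow]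
  apply hker
  intro x hx
  set m := Nat.card (N ≃ₐ[ℚ] N)
  have h1 : AlgEquiv.restrictNormalHom N (σ ^ m) = 1 := by
    rw [map_pow]
    exact pow_card_eq_one'
  have h2 : algebraMap N Qbar ((AlgEquiv.restrictNormalHom N (σ ^ m)) ⟨x, hLN hx⟩) =
      (σ ^ m) (algebraMap N Qbar ⟨x, hLN hx⟩) :=
    AlgEquiv.restrictNormal_commutes (σ ^ m) N ⟨x, hLN hx⟩
  rw [h1] at h2
  exact h2.symm

/-- Two finite-level representations whose Frobenius characteristic polynomials agree outside a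
finite set of primes have the same characteristic polynomial at every element. -/
theorem charpoly_eq_of_frobenius {k : Type} [CommRing k] (ρ ρ' : Γℚ →* GL (Fin 2) k)
    (hρ : GaloisFactorsThroughFiniteLevel ρ) (hρ' : GaloisFactorsThroughFiniteLevel ρ')
    (T : Finset ℕ)
    (h : ∀ p : ℕ, p.Prime → p ∉ T → ∀ A : ValuationSubring (AlgebraicClosure ℚ),
      A.LiesOverPrime p → ∀ σ : Γℚ, A.IsFrobeniusAt σ p →
        ((ρ σ : GL (Fin 2) k) : Matrix (Fin 2) (Fin 2) k).charpoly =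
          ((ρ' σ : GL (Fin 2) k) : Matrix (Fin 2) (Fin 2) k).charpoly) (g : Γℚ) :
    ((ρ g : GL (Fin 2) k) : Matrix (Fin 2) (Fin 2) k).charpoly =
      ((ρ' g : GL (Fin 2) k) : Matrix (Fin 2) (Fin 2) k).charpoly := by
  obtain ⟨L, hL, hker⟩ := hρ
  obtain ⟨L', hL', hker'⟩ := hρ'
  have hfd : FiniteDimensional ℚ (L ⊔ L' : IntermediateField ℚ Qbar) :=
    IntermediateField.finiteDimensional_sup L L'
  obtain ⟨p, A, φ, j, hp, hpT, hAp, hφ, hfix⟩ :=
    Fermat.Agent.ES.GAL.ChebQbar23.exists_frobenius_inv_mul_pow_fixes (L ⊔ L') g T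
  have h1 : ρ (g⁻¹ * φ ^ j) = 1 := hker _ fun x hx => hfix x ((le_sup_left : L ≤ L ⊔ L') hx)
  have h1' : ρ' (g⁻¹ * φ ^ j) = 1 := hker' _ fun x hx => hfix x ((le_sup_right : L' ≤ L ⊔ L') hx)
  have h2 : ρ g = ρ φ ^ j := by
    rw [map_mul, map_inv, inv_mul_eq_one, map_pow] at h1
    exact h1
  have h2' : ρ' g = ρ' φ ^ j := by
    rw [map_mul, map_inv, inv_mul_eq_one, map_pow] at h1'
    exact h1'
  rw [h2, h2', Units.val_pow_eq_pow_val, Units.val_pow_eq_pow_val]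
  exact charpoly_pow_eq_of_charpoly_eq (h p hp hpT A hAp φ hφ) j

/-- A complex `2 × 2` matrix of finite order with characteristic polynomial `(X - 1)²` is the
identity. -/
theorem eq_one_of_charpoly_eq_one (M : Matrix (Fin 2) (Fin 2) ℂ) (m : ℕ) (hm : 0 < m)
    (hpow : M ^ m = 1) (hchar : M.charpoly = (1 : Matrix (Fin 2) (Fin 2) ℂ).charpoly) : M = 1 := by
  obtain ⟨ht, hd⟩ := trace_det_eq_of_charpoly_eq hchar
  rw [Matrix.trace_one, Fintype.card_fin] at ht
  rw [Matrix.det_one] at hd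
  -- `(M - 1)² = 0`
  have hsq : (M - 1) * (M - 1) = 0 := by
    have h := mul_self_eq M
    rw [ht, hd] at h
    have : (M - 1) * (M - 1) = M * M - ((2 : ℕ) : ℂ) • M + (1 : ℂ) • (1 : Matrix (Fin 2) (Fin 2) ℂ) := by
      rw [one_smul, Nat.cast_ofNat, two_smul]
      noncomm_ring
    rw [this, h]
    abel
  -- `M ^ m = 1 + m (M - 1)`
  have hbin : ∀ n : ℕ, M ^ n = 1 + (n : ℂ) • (M - 1) := by
    intro n
    induction n with
    | zero => simp
    | succ n ih =>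
      have hM : M = 1 + (M - 1) := by abel
      have hgen : ∀ A X : Matrix (Fin 2) (Fin 2) ℂ, (1 + A) * (1 + X) = 1 + X + A + A * X := by
        intro A X
        noncomm_ring
      calc M ^ (n + 1) = M ^ n * M := pow_succ M n
        _ = (1 + (n : ℂ) • (M - 1)) * (1 + (M - 1)) := by rw [ih, ← hM]
        _ = 1 + ((n + 1 : ℕ) : ℂ) • (M - 1) := by
          rw [hgen, smul_mul_assoc, hsq, smul_zero, add_zero, Nat.cast_succ, add_smul, one_smul]
          abel
  have h1 := hbin m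
  rw [hpow] at h1
  have h2 : (m : ℂ) • (M - 1) = 0 := by
    have := h1
    rw [left_eq_add] at this
    exact this
  rcases smul_eq_zero.mp h2 with h3 | h3
  · exact absurd h3 (Nat.cast_ne_zero.mpr hm.ne')
  · exact sub_eq_zero.mp h3

/-- ... and hence the same kernel. -/
theorem ker_eq_of_frobenius (ρ ρ' : Γℚ →* GL (Fin 2) ℂ)
    (hρ : GaloisFactorsThroughFiniteLevel ρ) (hρ' : GaloisFactorsThroughFiniteLevel ρ')
    (T : Finset ℕ)
    (h : ∀ p : ℕ, p.Prime → p ∉ T → ∀ A : ValuationSubring (AlgebraicClosure ℚ),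
      A.LiesOverPrime p → ∀ σ : Γℚ, A.IsFrobeniusAt σ p →
        ((ρ σ : GL (Fin 2) ℂ) : Matrix (Fin 2) (Fin 2) ℂ).charpoly =
          ((ρ' σ : GL (Fin 2) ℂ) : Matrix (Fin 2) (Fin 2) ℂ).charpoly) (g : Γℚ) :
    ρ g = 1 ↔ ρ' g = 1 := by
  have hall := charpoly_eq_of_frobenius ρ ρ' hρ hρ' T h
  have key : ∀ (r r' : Γℚ →* GL (Fin 2) ℂ), GaloisFactorsThroughFiniteLevel r' →
      (∀ g, ((r g : GL (Fin 2) ℂ) : Matrix (Fin 2) (Fin 2) ℂ).charpoly =
        ((r' g : GL (Fin 2) ℂ) : Matrix (Fin 2) (Fin 2) ℂ).charpoly) →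
      ∀ g, r g = 1 → r' g = 1 := by
    intro r r' hr' hc g hg
    obtain ⟨m, hm, hpow⟩ := exists_pow_eq_one r' hr'
    apply Units.ext
    refine eq_one_of_charpoly_eq_one _ m hm ?_ ?_
    · rw [← Units.val_pow_eq_pow_val, hpow g, Units.val_one]
    · rw [← hc g, hg, Units.val_one]
  exact ⟨key ρ ρ' hρ' hall g, key ρ' ρ hρ (fun g => (hall g).symm) g⟩

/-- **Gluing two auxiliary primes.**  If `ρ₁` is unramified with Frobenius trace `t p` and
determinant `e p` at all primes `p ∤ N ℓ₁`, and `ρ₂` at all primes `p ∤ N ℓ₂`, where `ℓ₁ ≠ ℓ₂` are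
primes, then `ρ₁` is unramified with the right Frobenius trace and determinant at all `p ∤ N`. -/
theorem glue_two_primes (N ℓ₁ ℓ₂ : ℕ) (hℓ₁ : ℓ₁.Prime) (hℓ₂ : ℓ₂.Prime) (hne : ℓ₁ ≠ ℓ₂)
    (t e : ℕ → ℂ) (ρ₁ ρ₂ : Γℚ →* GL (Fin 2) ℂ)
    (h₁ : GaloisFactorsThroughFiniteLevel ρ₁) (h₂ : GaloisFactorsThroughFiniteLevel ρ₂)
    (H₁ : ∀ p : ℕ, p.Prime → ¬ p ∣ N * ℓ₁ →
      ∀ A : ValuationSubring (AlgebraicClosure ℚ), A.LiesOverPrime p →
        (∀ σ ∈ A.inertiaSubgroupIn ℚ, ρ₁ σ = 1) ∧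
        ∀ σ : Γℚ, A.IsFrobeniusAt σ p →
          ((ρ₁ σ : GL (Fin 2) ℂ) : Matrix (Fin 2) (Fin 2) ℂ).trace = t p ∧
          ((ρ₁ σ : GL (Fin 2) ℂ) : Matrix (Fin 2) (Fin 2) ℂ).det = e p)
    (H₂ : ∀ p : ℕ, p.Prime → ¬ p ∣ N * ℓ₂ →
      ∀ A : ValuationSubring (AlgebraicClosure ℚ), A.LiesOverPrime p →
        (∀ σ ∈ A.inertiaSubgroupIn ℚ, ρ₂ σ = 1) ∧
        ∀ σ : Γℚ, A.IsFrobeniusAt σ p →
          ((ρ₂ σ : GL (Fin 2) ℂ) : Matrix (Fin 2) (Fin 2) ℂ).trace = t p ∧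
          ((ρ₂ σ : GL (Fin 2) ℂ) : Matrix (Fin 2) (Fin 2) ℂ).det = e p) :
    ∀ p : ℕ, p.Prime → ¬ p ∣ N →
      ∀ A : ValuationSubring (AlgebraicClosure ℚ), A.LiesOverPrime p →
        (∀ σ ∈ A.inertiaSubgroupIn ℚ, ρ₁ σ = 1) ∧
        ∀ σ : Γℚ, A.IsFrobeniusAt σ p →
          ((ρ₁ σ : GL (Fin 2) ℂ) : Matrix (Fin 2) (Fin 2) ℂ).trace = t p ∧
          ((ρ₁ σ : GL (Fin 2) ℂ) : Matrix (Fin 2) (Fin 2) ℂ).det = e p := by
  intro p hp hpN A hA
  have hN0 : N ≠ 0 := fun h0 => hpN (h0 ▸ dvd_zero p)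
  have hprod : N * ℓ₁ * ℓ₂ ≠ 0 := mul_ne_zero (mul_ne_zero hN0 hℓ₁.ne_zero) hℓ₂.ne_zero
  set T : Finset ℕ := (N * ℓ₁ * ℓ₂).primeFactors with hT
  have hnotT : ∀ q : ℕ, q.Prime → q ∉ T → ¬ q ∣ N * ℓ₁ ∧ ¬ q ∣ N * ℓ₂ := by
    intro q hq hqT
    rw [hT, Nat.mem_primeFactors] at hqT
    constructor
    · intro hdvd
      exact hqT ⟨hq, Dvd.dvd.mul_right hdvd ℓ₂, hprod⟩
    · intro hdvd
      refine hqT ⟨hq, ?_, hprod⟩
      rcases (Nat.Prime.dvd_mul hq).mp hdvd with h | h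
      · exact Dvd.dvd.mul_right (Dvd.dvd.mul_right h ℓ₁) ℓ₂
      · exact Dvd.dvd.mul_left h (N * ℓ₁)
  have hchar : ∀ q : ℕ, q.Prime → q ∉ T → ∀ B : ValuationSubring (AlgebraicClosure ℚ),
      B.LiesOverPrime q → ∀ σ : Γℚ, B.IsFrobeniusAt σ q →
        ((ρ₁ σ : GL (Fin 2) ℂ) : Matrix (Fin 2) (Fin 2) ℂ).charpoly =
          ((ρ₂ σ : GL (Fin 2) ℂ) : Matrix (Fin 2) (Fin 2) ℂ).charpoly := by
    intro q hq hqT B hB σ hσ
    obtain ⟨hq1, hq2⟩ := hnotT q hq hqT
    obtain ⟨ht1, hd1⟩ := (H₁ q hq hq1 B hB).2 σ hσ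
    obtain ⟨ht2, hd2⟩ := (H₂ q hq hq2 B hB).2 σ hσ
    rw [Matrix.charpoly_fin_two, Matrix.charpoly_fin_two, ht1, hd1, ht2, hd2]
  have hall := charpoly_eq_of_frobenius ρ₁ ρ₂ h₁ h₂ T hchar
  have hkereq := ker_eq_of_frobenius ρ₁ ρ₂ h₁ h₂ T hchar
  by_cases hpℓ : p ∣ N * ℓ₁
  · -- then `p = ℓ₁`, use `ρ₂`
    have hpeq : p = ℓ₁ := by
      rcases (Nat.Prime.dvd_mul hp).mp hpℓ with h | h
      · exact absurd h hpN
      · exact (Nat.prime_dvd_prime_iff_eq hp hℓ₁).mp h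
    have hp2 : ¬ p ∣ N * ℓ₂ := by
      intro hdvd
      rcases (Nat.Prime.dvd_mul hp).mp hdvd with h | h
      · exact hpN h
      · exact hne (hpeq ▸ (Nat.prime_dvd_prime_iff_eq hp hℓ₂).mp h)
    obtain ⟨hin, hfr⟩ := H₂ p hp hp2 A hA
    refine ⟨fun σ hσ => (hkereq σ).mpr (hin σ hσ), fun σ hσ => ?_⟩
    obtain ⟨ht, hd⟩ := trace_det_eq_of_charpoly_eq (hall σ)
    rw [ht, hd]
    exact hfr σ hσ
  · exact H₁ p hp hpℓ A hA

end level

end Fermat.Agent.DS.End.TwoPrimes
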